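import Mathlib

/-!
# P-ES / S30-PADIC (row 369), glue part 1: the `p`-power torsion of an abelian group

Mathlib only.  For an abelian group `J` with an action of a group `G` by additive maps:
the subgroup `ppTors J p` of `p`-power torsion with its `G`-action, the restriction of additive
endomorphisms, and finiteness of its `p ^ k`-torsion.
-/

set_option autoImplicit false

noncomputable section

namespace Fermat.Agent.H37

section PPower

variable (J : Type) [AddCommGroup J] (p : ℕ)

/-- The `p`-power torsion subgroup of an abelian group. -/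
def ppTors : AddSubgroup J where
  carrier := {x | ∃ k : ℕ, p ^ k • x = 0}
  zero_mem' := ⟨0, smul_zero _⟩
  add_mem' := by
    rintro a b ⟨k, hk⟩ ⟨l, hl⟩
    refine ⟨k + l, ?_⟩
    have h1 : p ^ (k + l) • a = 0 := by rw [pow_add, mul_comm, mul_smul, hk, smul_zero]
    have h2 : p ^ (k + l) • b = 0 := by rw [pow_add, mul_smul, hl, smul_zero]
    rw [smul_add, h1, h2, add_zero]
  neg_mem' := by
    rintro a ⟨k, hk⟩
    exact ⟨k, by rw [smul_neg, hk, neg_zero]⟩

variable {J p}

theorem mem_ppTors {x : J} : x ∈ ppTors J p ↔ ∃ k : ℕ, p ^ k • x = 0 := Iff.rfl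

theorem mem_ppTors_of_smul_eq_zero {x : J} {k : ℕ} (h : p ^ k • x = 0) : x ∈ ppTors J p :=
  ⟨k, h⟩

variable (p) in
/-- Restriction of an additive endomorphism to the `p`-power torsion. -/
def ppOp (T : J →+ J) : ppTors J p →+ ppTors J p :=
  AddMonoidHom.mk' (fun x => ⟨T (x : J), by
    obtain ⟨k, hk⟩ := x.2
    exact ⟨k, by rw [← map_nsmul, hk, map_zero]⟩⟩)
    (fun x y => Subtype.ext (by
      show T ((x + y : ppTors J p) : J) = T (x : J) + T (y : J)
      rw [AddSubgroup.coe_add, map_add]))

@[simp] theorem coe_ppOp (T : J →+ J) (x : ppTors J p) :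
    ((ppOp p T x : ppTors J p) : J) = T (x : J) := rfl

variable (p) in
/-- Corestriction of an additive map with `p`-power torsion values. -/
def ppCod {M : Type} [AddCommGroup M] (κ : M →+ J) (k : ℕ) (h : ∀ m : M, p ^ k • κ m = 0) :
    M →+ ppTors J p :=
  AddMonoidHom.mk' (fun m => ⟨κ m, ⟨k, h m⟩⟩) (fun x y => Subtype.ext (by
    show κ (x + y) = κ x + κ y
    rw [map_add]))

@[simp] theorem coe_ppCod {M : Type} [AddCommGroup M] (κ : M →+ J) (k : ℕ)
    (h : ∀ m : M, p ^ k • κ m = 0) (m : M) : ((ppCod p κ k h m : ppTors J p) : J) = κ m := rfl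

section Action

variable {G : Type} [Group G] [DistribMulAction G J]

instance ppTorsAction : DistribMulAction G (ppTors J p) where
  smul g x := ⟨g • (x : J), by
    obtain ⟨k, hk⟩ := x.2
    exact ⟨k, by rw [smul_comm, hk, smul_zero]⟩⟩
  one_smul x := Subtype.ext (one_smul _ _)
  mul_smul g h x := Subtype.ext (mul_smul _ _ _)
  smul_zero g := Subtype.ext (smul_zero _)
  smul_add g x y := Subtype.ext (smul_add _ _ _)

@[simp] theorem coe_smul_ppTors (g : G) (x : ppTors J p) :
    ((g • x : ppTors J p) : J) = g • (x : J) := rfl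

end Action

/-- The fibres of multiplication by `p` on an abelian group with finite `p`-torsion are
finite. -/
theorem finite_fibre_smul (hfin : {x : J | p • x = 0}.Finite) (b : J) :
    {x : J | p • x = b}.Finite := by
  by_cases h : ∃ x₀ : J, p • x₀ = b
  · obtain ⟨x₀, hx₀⟩ := h
    refine (hfin.image (fun y => x₀ + y)).subset ?_
    intro x hx
    refine ⟨x - x₀, ?_, add_sub_cancel x₀ x⟩
    show p • (x - x₀) = 0
    rw [smul_sub, show p • x = b from hx, hx₀, sub_self]
  · have : {x : J | p • x = b} = ∅ := by
      ext x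
      constructor
      · intro hx
        exact (h ⟨x, hx⟩).elim
      · intro hx
        exact hx.elim
    rw [this]
    exact Set.finite_empty

/-- If the `p`-torsion is finite then so is the `p ^ k`-torsion. -/
theorem finite_pow_torsion (hfin : {x : J | p • x = 0}.Finite) (k : ℕ) :
    {x : J | p ^ k • x = 0}.Finite := by
  induction k with
  | zero =>
    refine (Set.finite_singleton (0 : J)).subset ?_
    intro x hx
    have : p ^ 0 • x = 0 := hx
    rw [pow_zero, one_smul] at this
    exact this
  | succ k ih =>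
    have h1 : {x : J | p ^ (k + 1) • x = 0} = (fun x : J => p • x) ⁻¹' {y : J | p ^ k • y = 0} := by
      ext x
      show p ^ (k + 1) • x = 0 ↔ p ^ k • p • x = 0
      rw [pow_succ, mul_smul]
    rw [h1]
    exact ih.preimage' (fun b _ => finite_fibre_smul hfin b)

/-- A relation `n • x = 0` in the `p`-power torsion subgroup holds in the ambient group. -/
theorem coe_nsmul_eq_zero {x : ppTors J p} {n : ℕ} (h : n • x = 0) : n • (x : J) = 0 := by
  rw [← AddSubgroup.coe_nsmul, h, AddSubgroup.coe_zero]

/-- Finiteness of the `p ^ k`-torsion of the `p`-power torsion subgroup. -/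
theorem finite_ppTors_torsion (hfin : ∀ k : ℕ, {x : J | p ^ k • x = 0}.Finite) (k : ℕ) :
    Finite {x : ppTors J p // p ^ k • x = 0} := by
  have hF : Finite {x : J // p ^ k • x = 0} := (hfin k).to_subtype
  refine Finite.of_injective
    (fun x : {x : ppTors J p // p ^ k • x = 0} =>
      (⟨((x : ppTors J p) : J), coe_nsmul_eq_zero x.2⟩ : {x : J // p ^ k • x = 0})) ?_
  intro x y h
  have h1 : ((x : ppTors J p) : J) = ((y : ppTors J p) : J) :=
    congrArg (fun z : {x : J // p ^ k • x = 0} => (z : J)) h
  exact Subtype.ext (Subtype.ext h1)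

end PPower

end Fermat.Agent.H37
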