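import Mathlib

/-!
# P-ES / S30-PADIC (row 369): the two abstract (Mathlib-only) statements

`Prop`-valued statements only; no proofs here.

* `TateMachineStatement` : from an abelian group `J` with an action of a group `G`, additive
  operators `T i` commuting with `G`, finite `p ^ k`-torsion, and a system of eigenvalues
  `a i : 𝒪` that OCCURS at every level (an eigenvector of exact order `p ^ (k+1)` in `𝒪 ⊗ J`
  for every `k`, NO compatibility in `k`), a nonzero finite free `𝒪`-module `Λ` with `G`-action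
  on which every relation valid on the `p`-power torsion of `J` holds with `T i` replaced by
  `a i`.  (Intended proof: `Λ` = compatible eigen-sequences in `𝒪 ⊗ J`.)
* `KummerOccursStatement` : occurrence at every level from a faithful Hecke lattice with
  Kummer embeddings `Λ₀ / p ^ (k+1) Λ₀ ↪ J` (one for each `k`, NO compatibility in `k`).
-/

set_option autoImplicit false

noncomputable section

namespace Fermat.Agent.H37

open scoped TensorProduct

/-- **The abstract Tate machine** (pure algebra).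

Intended proof: `W := 𝒪 ⊗[ℤ] J`, `Λ := {v : ℕ → W | v 0 = 0 ∧ ∀ k, p • v (k+1) = v k ∧
∀ i k, (1 ⊗ T i) (v k) = a i • v k}` with `G` acting coordinatewise.
* `W[p ^ k]` is the image of `𝒪 ⊗ J[p ^ k]` (`𝒪` is flat over `ℤ`), hence finite, and every
  additive map killing `J[p ^ k]` kills it after `𝒪 ⊗ -`;
* `Λ` is torsion free; `v ↦ v k` has kernel `p ^ k Λ` (shift); `Λ / p Λ` is finite, so `Λ` is
  finitely generated (`p`-adic series, `𝒪` complete, `⋂ p ^ k Λ = 0`), hence free;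
* `Λ ≠ 0`: the sets `E k := {w | p ^ (k+1) w = 0 ∧ p ^ k w ≠ 0 ∧ eigen}` are finite and nonempty,
  `w ↦ p • w` maps `E (k+1)` to `E k`; an inverse limit of nonempty finite sets is nonempty. -/
def TateMachineStatement : Prop :=
  ∀ (p : ℕ) [Fact p.Prime] (G : Type) [Group G] (J : Type) [AddCommGroup J]
    [DistribMulAction G J] (ι : Type) (T : ι → (J →+ J)),
    (∀ (i : ι) (g : G) (x : J), T i (g • x) = g • T i x) →
    (∀ k : ℕ, Finite {x : J // p ^ k • x = 0}) →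
    ∀ (𝒪 : Type) [CommRing 𝒪] [IsDomain 𝒪] [IsDiscreteValuationRing 𝒪]
      [IsAdicComplete (IsLocalRing.maximalIdeal 𝒪) 𝒪] [Finite (IsLocalRing.ResidueField 𝒪)]
      [CharZero 𝒪], (p : 𝒪) ∈ IsLocalRing.maximalIdeal 𝒪 →
    ∀ (a : ι → 𝒪),
      (∀ k : ℕ, ∃ v : 𝒪 ⊗[ℤ] J, (p : 𝒪) ^ (k + 1) • v = 0 ∧ (p : 𝒪) ^ k • v ≠ 0 ∧
        ∀ i : ι, (T i).toIntLinearMap.baseChange 𝒪 v = a i • v) →
      ∃ (Λ : Type) (_ : AddCommGroup Λ) (_ : Module 𝒪 Λ) (_ : Module.Free 𝒪 Λ)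
        (_ : Module.Finite 𝒪 Λ) (_ : Nontrivial Λ) (ρ : G →* Module.End 𝒪 Λ),
        (∀ (k : ℕ) (g : G), (∀ x : J, p ^ k • x = 0 → g • x = x) →
          ∀ v : Λ, ρ g v - v ∈ (IsLocalRing.maximalIdeal 𝒪 ^ k) • (⊤ : Submodule 𝒪 Λ)) ∧
        (∀ g : G, (∀ x : J, (∃ k : ℕ, p ^ k • x = 0) → g • x = x) → ρ g = 1) ∧
        (∀ (g : G) (i : ι) (c : ℕ),
          (∀ x : J, (∃ k : ℕ, p ^ k • x = 0) → g • g • x - T i (g • x) + c • x = 0) →
            ρ g * ρ g - a i • ρ g + (c : 𝒪) • (1 : Module.End 𝒪 Λ) = 0)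

/-- **Occurrence from Kummer embeddings and faithfulness** (pure algebra).

`Λ₀` a finitely generated free `ℤ`-module with commuting operators `ev (X i)`; the character
`X i ↦ a i` factors through the image of `ev` (faithfulness); for every `k` an additive map
`κ : Λ₀ → J` with values in `J[p ^ (k+1)]`, kernel `p ^ (k+1) Λ₀`, intertwining `ev (X i)` and
`T i`.  Then for every `k` there is an eigenvector of exact order `p ^ (k+1)` in `𝒪 ⊗ J`.

Intended proof: a simultaneous eigenvector of the `ev (X i)` with eigenvalues `a i` in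
`Frac 𝒪 ⊗ Λ₀` (the image of `ev` is a finite free commutative `ℤ`-algebra acting faithfully;
Nakayama over the finite-dimensional algebra `Frac 𝒪 ⊗ im ev`), scaled to a primitive vector
`v` of `𝒪 ⊗ Λ₀`; `w := (1 ⊗ κ) v`; `𝒪 ⊗ (Λ₀ / p ^ (k+1)) → 𝒪 ⊗ J` is injective by flatness. -/
def KummerOccursStatement : Prop :=
  ∀ (p : ℕ) [Fact p.Prime] (Λ₀ : Type) [AddCommGroup Λ₀] [Module.Free ℤ Λ₀]
    [Module.Finite ℤ Λ₀] (J : Type) [AddCommGroup J] (ι : Type) (T : ι → (J →+ J))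
    (ev : MvPolynomial ι ℤ →+* Module.End ℤ Λ₀)
    (𝒪 : Type) [CommRing 𝒪] [IsDomain 𝒪] [IsDiscreteValuationRing 𝒪] [CharZero 𝒪],
    (p : 𝒪) ∈ IsLocalRing.maximalIdeal 𝒪 →
    ∀ (a : ι → 𝒪),
      (∀ P : MvPolynomial ι ℤ, ev P = 0 → MvPolynomial.aeval a P = 0) →
      (∀ k : ℕ, ∃ κ : Λ₀ →+ J, (∀ ψ : Λ₀, p ^ (k + 1) • κ ψ = 0) ∧
          (∀ ψ : Λ₀, κ ψ = 0 → ∃ ψ' : Λ₀, ψ = p ^ (k + 1) • ψ') ∧
          ∀ (i : ι) (ψ : Λ₀), κ (ev (MvPolynomial.X i) ψ) = T i (κ ψ)) →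
      ∀ k : ℕ, ∃ v : 𝒪 ⊗[ℤ] J, (p : 𝒪) ^ (k + 1) • v = 0 ∧ (p : 𝒪) ^ k • v ≠ 0 ∧
        ∀ i : ι, (T i).toIntLinearMap.baseChange 𝒪 v = a i • v

end Fermat.Agent.H37
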