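import Fermat.Agent.H37.ESAdic.Abstract
import Fermat.Agent.H37.ESAdic.PPower
import Fermat.Agent.H52.ESS30
import Fermat.Agent.H52.ESTateMachine
import Fermat.Agent.H14.S31LatSide
import Fermat.Agent.H53.ES.OpenStab
import Fermat.Agent.H23.EsA.JTors

/-!
# P-ES / S30-PADIC (row 369), glue: the Eichler–Shimura lattice from the `J`-side statements

`eichlerShimuraLattice_of_jside` : `Fermat.Agent.H52.EichlerShimuraLatticeStatement` (the only
input of `Fermat.Agent.H52.s30_of_lattice`, i.e. of the frozen statement S30) from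

* `KummerOccursStatement` (pure algebra, block (B)),
* `Fermat.Agent.H22.ES.TorsionUnramifiedStatement N` (Q-U),
* `Fermat.Agent.H36.HeckeGaloisTorsionStatement N` (Q-ES-3),
* `Fermat.Agent.H36.EichlerShimuraRelStatement N` (Q-ES-4),
* `Fermat.Agent.H14.KummerEmbeddingStatement N` (S31-KUM),
* `Fermat.Agent.H14.CohFaithfulStatement N S` (S31-COH),

using the landed unconditional results `Fermat.Agent.H52.tateMachine` (block (A)),
`Fermat.Agent.H23.EsA.finite_jTors` (finiteness of torsion) and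
`Fermat.Agent.H53.jZero_torsion_finiteLevel'` (finite level of torsion).
-/

set_option autoImplicit false

noncomputable section

namespace Fermat.Agent.H37

open ModularCurve AlgebraicCurve Fermat.Agent.H14
open scoped TensorProduct

section Ops

variable (N : ℕ) [NeZero N] (S : Finset ℕ)

/-- The Hecke operators on `J₀(N)(ℚ̄)`: the prelude operator at the good primes, `0` at the
others. -/
def esJOp : Nat.Primes → (JZero N →+ JZero N) := fun ℓ =>
  open Classical in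
  if ¬ (ℓ : ℕ) ∣ N ∧ (ℓ : ℕ) ∉ (↑S : Set ℕ) then (heckeOperatorBar N ℓ).toAddMonoidHom else 0

theorem esJOp_of_good {ℓ : ℕ} (hℓ : ℓ.Prime) (hℓN : ¬ ℓ ∣ N) (hℓS : ℓ ∉ (↑S : Set ℕ))
    (x : JZero N) : esJOp N S ⟨ℓ, hℓ⟩ x = heckeOperatorBar N ⟨ℓ, hℓ⟩ x := by
  unfold esJOp
  rw [if_pos ⟨hℓN, hℓS⟩]
  rfl

theorem esJOp_of_not_good {ℓ : ℕ} (hℓ : ℓ.Prime) (h : ¬ (¬ ℓ ∣ N ∧ ℓ ∉ (↑S : Set ℕ))) :
    esJOp N S ⟨ℓ, hℓ⟩ = 0 := by
  unfold esJOp
  rw [if_neg h]

end Ops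

/-- A prime different from `p` does not divide a power of `p`. -/
theorem not_dvd_prime_pow {p q : ℕ} (hp : p.Prime) (hq : q.Prime) (hqp : q ≠ p) (k : ℕ) :
    ¬ q ∣ p ^ k := fun h =>
  hqp ((Nat.prime_dvd_prime_iff_eq hq hp).mp (hq.dvd_of_dvd_pow h))

/-- **The Eichler–Shimura lattice from the `J`-side statements.** -/
theorem eichlerShimuraLattice_of_jside (hO : KummerOccursStatement)
    (hU : ∀ (N : ℕ) [NeZero N], Fermat.Agent.H22.ES.TorsionUnramifiedStatement N)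
    (hGal : ∀ (N : ℕ) [NeZero N], Fermat.Agent.H36.HeckeGaloisTorsionStatement N)
    (hES : ∀ (N : ℕ) [NeZero N], Fermat.Agent.H36.EichlerShimuraRelStatement N)
    (hKum : ∀ (N : ℕ) [NeZero N], KummerEmbeddingStatement N)
    (hCoh : ∀ (N : ℕ) [NeZero N] (S : Finset ℕ), CohFaithfulStatement N S) :
    Fermat.Agent.H52.EichlerShimuraLatticeStatement := by
  intro p hp N _ S hpS hNS 𝒪' _ _ _ _ _ _ hp𝒪' χ
  have hpp : p.Prime := Fact.out
  have hpk : ∀ k : ℕ, 0 < p ^ k := fun k => pow_pos hpp.pos k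
  -- finiteness of the torsion
  have hfin0 : ∀ k : ℕ, {x : JZero N | p ^ k • x = 0}.Finite := by
    intro k
    have hF := Fermat.Agent.H23.EsA.finite_jTors N (hpk k)
    have hF' : (↑(Pic0.torsion (AlgebraicClosure ℚ) (modularFunctionFieldBar N) (p ^ k)) :
        Set (JZero N)).Finite := Set.finite_coe_iff.mp hF
    refine hF'.subset ?_
    intro x hx
    show x ∈ Pic0.torsion (AlgebraicClosure ℚ) (modularFunctionFieldBar N) (p ^ k)
    rw [Pic0.mem_torsion, natCast_zsmul]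
    exact hx
  have hfin : ∀ k : ℕ, Finite {x : ppTors (JZero N) p // p ^ k • x = 0} :=
    finite_ppTors_torsion hfin0
  -- commutation of the Hecke operators with the Galois action on the `p`-power torsion
  have hcomm : ∀ (i : Nat.Primes) (g : AlgebraicClosure ℚ ≃ₐ[ℚ] AlgebraicClosure ℚ)
      (x : ppTors (JZero N) p), ppOp p (esJOp N S i) (g • x) = g • ppOp p (esJOp N S i) x := by
    rintro ⟨ℓ, hℓ⟩ g x
    refine Subtype.ext ?_
    show esJOp N S ⟨ℓ, hℓ⟩ (g • (x : JZero N)) = g • esJOp N S ⟨ℓ, hℓ⟩ (x : JZero N)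
    by_cases h : ¬ ℓ ∣ N ∧ ℓ ∉ (↑S : Set ℕ)
    · obtain ⟨k, hk⟩ := x.2
      rw [esJOp_of_good N S hℓ h.1 h.2, esJOp_of_good N S hℓ h.1 h.2]
      exact hGal N ℓ hℓ h.1 g (p ^ k) (hpk k) (x : JZero N) hk
    · rw [esJOp_of_not_good N S hℓ h, AddMonoidHom.zero_apply, AddMonoidHom.zero_apply,
        smul_zero]
  -- faithfulness
  have hfaith : ∀ P : MvPolynomial Nat.Primes ℤ, s31LatEval N S P = 0 →
      MvPolynomial.aeval (fun ℓ => χ (s31HeckeVal N S ℓ)) P = 0 := by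
    intro P hP
    have h1 := hCoh N S (s31LatEval N S)
      (fun ℓ hℓ hℓN hℓS ψ => by
        rw [s31LatEval_heckeGen]
        exact s31LatOp_of_good N S hℓ hℓN hℓS ψ)
      (fun ℓ hℓ h => by
        rw [s31LatEval_heckeGen]
        exact s31LatOp_of_not_good N S hℓ h) P hP
    have h2 : MvPolynomial.aeval (fun ℓ => χ (s31HeckeVal N S ℓ)) =
        (χ.toIntAlgHom).comp (MvPolynomial.aeval (s31HeckeVal N S)) :=
      (MvPolynomial.comp_aeval (s31HeckeVal N S) χ.toIntAlgHom).symm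
    rw [h2, AlgHom.comp_apply, h1, map_zero]
  -- the Kummer maps
  have hkum : ∀ k : ℕ, ∃ κ : S31Lat N →+ ppTors (JZero N) p,
      (∀ ψ : S31Lat N, p ^ (k + 1) • κ ψ = 0) ∧
      (∀ ψ : S31Lat N, κ ψ = 0 → ∃ ψ' : S31Lat N, ψ = p ^ (k + 1) • ψ') ∧
      ∀ (i : Nat.Primes) (ψ : S31Lat N),
        κ (s31LatEval N S (MvPolynomial.X i) ψ) = ppOp p (esJOp N S i) (κ ψ) := by
    intro k
    obtain ⟨κ, hκ1, hκ2, hκ3⟩ := hKum N (p ^ (k + 1)) (hpk (k + 1))
    refine ⟨ppCod p κ (k + 1) hκ1, ?_, ?_, ?_⟩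
    · intro ψ
      refine Subtype.ext ?_
      rw [AddSubgroup.coe_nsmul, coe_ppCod, hκ1 ψ]
      rfl
    · intro ψ hψ
      refine hκ2 ψ ?_
      have := congrArg (fun y : ppTors (JZero N) p => (y : JZero N)) hψ
      exact this
    · rintro ⟨ℓ, hℓ⟩ ψ
      refine Subtype.ext ?_
      show κ (s31LatEval N S (heckeGen ⟨ℓ, hℓ⟩) ψ) = esJOp N S ⟨ℓ, hℓ⟩ (κ ψ)
      rw [s31LatEval_heckeGen]
      by_cases h : ¬ ℓ ∣ N ∧ ℓ ∉ (↑S : Set ℕ)
      · rw [esJOp_of_good N S hℓ h.1 h.2]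
        exact hκ3 ℓ hℓ h.1 ψ _ (s31LatOp_of_good N S hℓ h.1 h.2 ψ)
      · rw [esJOp_of_not_good N S hℓ h, s31LatOp_of_not_good N S hℓ h,
          AddMonoidHom.zero_apply, LinearMap.zero_apply, map_zero]
  -- occurrence and the Tate machine
  have hocc := hO p (S31Lat N) (ppTors (JZero N) p) Nat.Primes
    (fun ℓ => ppOp p (esJOp N S ℓ)) (s31LatEval N S) 𝒪' hp𝒪'
    (fun ℓ => χ (s31HeckeVal N S ℓ)) hfaith hkum
  obtain ⟨Λ, i1, i2, i3, i4, i5, ρ, h1, h2, h3⟩ :=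
    Fermat.Agent.H52.tateMachine p (AlgebraicClosure ℚ ≃ₐ[ℚ] AlgebraicClosure ℚ)
      (ppTors (JZero N) p) Nat.Primes (fun ℓ => ppOp p (esJOp N S ℓ)) hcomm hfin 𝒪' hp𝒪'
      (fun ℓ => χ (s31HeckeVal N S ℓ)) hocc
  refine ⟨Λ, i1, i2, i3, i4, i5, ρ, ?_, ?_, ?_⟩
  · -- adic continuity
    intro n
    haveI := Fermat.Agent.H23.EsA.finite_jTors N (hpk n)
    obtain ⟨L, hL, h⟩ := Fermat.Agent.H53.jZero_torsion_finiteLevel' N (p ^ n)
    refine ⟨L, hL, fun σ hσ v => h1 n σ (fun x hx => ?_) v⟩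
    refine Subtype.ext ?_
    exact h σ hσ (x : JZero N) (coe_nsmul_eq_zero hx)
  · -- the Eichler–Shimura relation
    intro ℓ hℓ hℓN hℓS A hA σ hσ
    have hℓp : ℓ ≠ p := fun h => hℓS (h ▸ Finset.mem_coe.mpr hpS)
    have := h3 σ ⟨ℓ, hℓ⟩ ℓ (fun x hx => by
      obtain ⟨k, hk⟩ := hx
      refine Subtype.ext ?_
      show σ • σ • (x : JZero N) - esJOp N S ⟨ℓ, hℓ⟩ (σ • (x : JZero N)) + ℓ • (x : JZero N) = 0
      rw [esJOp_of_good N S hℓ hℓN hℓS]
      exact hES N ℓ hℓ hℓN (p ^ k) (hpk k) (not_dvd_prime_pow hpp hℓ hℓp k) A hA σ hσ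
        (x : JZero N) (coe_nsmul_eq_zero hk))
    rw [s31HeckeVal_of_good N S hℓ hℓN hℓS] at this
    exact this
  · -- unramified outside `N p`
    intro q hq hqN hqp P hP σ hσ
    refine h2 σ (fun x hx => ?_)
    obtain ⟨k, hk⟩ := hx
    refine Subtype.ext ?_
    exact hU N q hq hqN (p ^ k) (hpk k) (not_dvd_prime_pow hpp hq hqp k) P hP σ hσ
      (x : JZero N) (coe_nsmul_eq_zero hk)

end Fermat.Agent.H37
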