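import Fermat.Agent.H37.ESAdic.Glue
import Fermat.Agent.H28.ES.S29KL
import Fermat.Agent.H97.QES3
import Fermat.Agent.H34.S31Kum.Main
import Fermat.Agent.H21.EsC.QEigFinal
import Fermat.Agent.H94.QEig.Unconditional
import Fermat.Agent.H79.CohFaithful

/-!
# P-ES / S30-PADIC (row 369): S30 from the KEY LEMMA and the occurrence lemma

`s30_of_keyLemma` : the frozen statement S30 from exactly TWO open inputs,

* `hKL : Fermat.Agent.H22.ES.KeyLemmaAllStatement`  (rows KL-*),
* `hO  : Fermat.Agent.H37.KummerOccursStatement`    (block (B), pure algebra).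

Discharged with landed theorems: (U) and the Eichler–Shimura relation on torsion from the key
lemma (helper79, helper36, helper28), Galois equivariance (helper97/helper49), the Kummer
embedding (helper34, helper21, helper94), faithfulness on the lattice (helper79), the Tate
machine (helper52), finiteness and finite level of torsion (helper23, helper53).
-/

set_option autoImplicit false

namespace Fermat.Agent.H37

open Polynomial

/-- The Eichler–Shimura lattice from the key lemma and the occurrence lemma. -/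
theorem eichlerShimuraLattice_of_keyLemma
    (hKL : Fermat.Agent.H22.ES.KeyLemmaAllStatement) (hO : KummerOccursStatement) :
    Fermat.Agent.H52.EichlerShimuraLatticeStatement :=
  eichlerShimuraLattice_of_jside hO
    (fun N _ => Fermat.Agent.H28.torsionUnramified_of_kl hKL N)
    (fun N _ => Fermat.Agent.H97.heckeGaloisTorsionStatement N)
    (fun N _ => Fermat.Agent.H28.eichlerShimuraRel_of_kl hKL N)
    (fun N _ => Fermat.Agent.H34.kummerEmbedding N (Fermat.Agent.H21.EsC.kummerHecke N)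
      (Fermat.Agent.H94.QEig.heckeDescent N))
    (fun N _ S => Fermat.Agent.H79.cohFaithful N S)

/-- **S30 (frozen shape) from the key lemma and the occurrence lemma.** -/
theorem s30_of_keyLemma
    (hKL : Fermat.Agent.H22.ES.KeyLemmaAllStatement) (hO : KummerOccursStatement) :
    ∀ (p : ℕ) [Fact p.Prime] (N : ℕ) [NeZero N] (S : Finset ℕ)
      (_hpS : p ∈ S) (_hNS : ∀ q : ℕ, q.Prime → q ∣ N → q ∈ S)
      (𝒪' : Type) [CommRing 𝒪'] [IsDomain 𝒪'] [IsDiscreteValuationRing 𝒪']
      [IsAdicComplete (IsLocalRing.maximalIdeal 𝒪') 𝒪'] [Finite (IsLocalRing.ResidueField 𝒪')]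
      [CharZero 𝒪'] (_hp𝒪' : (p : 𝒪') ∈ IsLocalRing.maximalIdeal 𝒪')
      (χ : CuspForm.heckeAlgebra N 2 (↑S : Set ℕ) →+* 𝒪'),
      ∃ (𝒪'' : Type) (_ : CommRing 𝒪'') (_ : IsDomain 𝒪'') (_ : IsDiscreteValuationRing 𝒪'')
        (_ : IsAdicComplete (IsLocalRing.maximalIdeal 𝒪'') 𝒪'')
        (_ : Finite (IsLocalRing.ResidueField 𝒪'')) (_ : CharZero 𝒪'')
        (_ : Algebra 𝒪' 𝒪'') (_ : Module.Finite 𝒪' 𝒪'') (_ : IsLocalHom (algebraMap 𝒪' 𝒪'')),
      Function.Injective (algebraMap 𝒪' 𝒪'') ∧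
      ∃ ρ : GaloisRepAdic 𝒪'',
        (∀ (ℓ : ℕ) (hℓ : ℓ.Prime) (hℓN : ¬ ℓ ∣ N) (hℓS : ℓ ∉ (↑S : Set ℕ)),
          ∀ A : ValuationSubring (AlgebraicClosure ℚ), A.LiesOverPrime ℓ →
            ∀ σ : AlgebraicClosure ℚ ≃ₐ[ℚ] AlgebraicClosure ℚ, A.IsFrobeniusAt σ ℓ →
              LinearMap.charpoly (ρ.ρ σ) =
                X ^ 2 - C (algebraMap 𝒪' 𝒪'' (χ (CuspForm.heckeAlgebra.T hℓ hℓN hℓS))) * X
                  + C ((ℓ : 𝒪''))) ∧
        (∀ q : ℕ, q.Prime → ¬ q ∣ N → q ≠ p → ρ.IsUnramifiedAt q) :=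
  Fermat.Agent.H52.s30_of_lattice (eichlerShimuraLattice_of_keyLemma hKL hO)

end Fermat.Agent.H37
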